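/-
CFT program, layer Global, [AUX]: the auxiliary layer `LGChase.AuxLayer` — PLAN (helper25).

For a `p`-group Galois pair `(G, L)` (`p` odd), a rational prime `q` and a place `m` of `L`
above `q`, put `K = L^G` and let `v` be the place of `K` below `m`.  The auxiliary layer is the
`p`-layer `E` of `K(ζ_ℓ)/K` for a prime `ℓ ≠ q` modulo which `N v` has `p`-power order
(`CycloAux.exists_cyclic_aux`), together with the compositum `L·E` (`CompositumPair`).

The arithmetic statement about `(Γ, E) = (Gal(E/K), E)` is `AuxRec`: there is a `Γ`-invariant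
element `a₁` of the block of `v` such that `n • a₁` is a norm of an idele class only if
`|D_v| ∣ n`.  Together with the count `|B^Γ / N_Γ B| = |D_v|` (Herbrand quotient of a block,
landed: `Bridge.LocCompMain`) this gives the norm form of local–global injectivity, hence
injectivity on `H²` (`LG.injective_of_norm`); no local norm theorem for unramified extensions
is needed.

Contracts of this file (each a `Prop`; the providers prove them VERBATIM):

* `AuxUnif`  — [AUX.U]  a uniformizer in the block of a place (divisor `= 1·v`);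
* `AuxFrob`  — [AUX.Frob]  a Frobenius of `K(ζ_ℓ)/K` at an unramified prime of `E ⊆ K(ζ_ℓ)`
  whose restriction to `E` has the order of the decomposition group;
* `AuxExtract` — [AUX.X]  from a norm equation of idele classes to a norm equation of ideles;
* `AuxCount` — [AUX.C]  the count: a generator of `B^Γ / N_Γ B` gives the norm form;
* `AuxRec`   — [AUX.Rec]  the intermediate statement (proved in `AuxL/Rec.lean` from the three
  contracts above and the landed cyclotomic Artin calculus `CycloArtin`).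
-/
import Mathlib
import Fermat.Agent.CFT.Global.Defs
import Fermat.Agent.CFT.Global.CountDict
import Fermat.Agent.CFT.Global.QBridgeDiv

set_option autoImplicit false

open scoped TensorProduct Pointwise
open scoped Fermat.Agent.CFT.Global

namespace Fermat.Agent.CFT.Global.AuxL

open Fermat.Agent.CFT.Global NumberField

/-- [AUX.U] **A uniformizer in the block of a place.**  For a place `m` of `K` above `q` there
is a unit of `K ⊗[ℚ] ℚ_[q]` which is `≡ 1` modulo every other maximal ideal and whose divisor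
(`QBridge.divq`) is `1` at the prime of `𝓞 K` below `m` (`CountDict.placeBelow m`) and `0` at
the other primes above `q`. -/
def AuxUnif : Prop :=
  ∀ (K : Type) [Field K] [NumberField K] (q : ℕ) [Fact q.Prime]
    (m : MaximalSpectrum (K ⊗[ℚ] ℚ_[q])),
    ∃ x : (K ⊗[ℚ] ℚ_[q])ˣ,
      (∀ m' : Ideal (K ⊗[ℚ] ℚ_[q]), m'.IsMaximal → m' ≠ m.asIdeal →
        (x : K ⊗[ℚ] ℚ_[q]) - 1 ∈ m') ∧
      Multiplicative.toAdd (QBridge.divq q K x)
        ⟨CountDict.placeBelow m, CountDict.natCast_mem_placeBelow m⟩ = 1 ∧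
      ∀ w : QBridge.PrimesOver q K,
        w ≠ ⟨CountDict.placeBelow m, CountDict.natCast_mem_placeBelow m⟩ →
        Multiplicative.toAdd (QBridge.divq q K x) w = 0

/-- [AUX.Frob] **Frobenius generates the decomposition group.**  `E` an intermediate field of
`K(ζ_ℓ)/K`, Galois over `K`; `P` a nonzero prime of `𝓞 E` not containing `ℓ` and unramified
over `K`.  There is `φ ∈ Gal(K(ζ_ℓ)/K)` acting on the `ℓ`-th roots of unity as
`t ↦ t ^ N(P ∩ 𝓞 K)` such that `φ ^ n` fixes `E` pointwise only if the order of the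
decomposition group of `P` divides `n`. -/
def AuxFrob : Prop :=
  ∀ (K : Type) [Field K] [NumberField K] (ℓ : ℕ) [Fact ℓ.Prime]
    (E : IntermediateField K (CyclotomicField ℓ K)) [IsGalois K E]
    (P : Ideal (𝓞 E)), P.IsPrime → P ≠ ⊥ → (ℓ : 𝓞 E) ∉ P → P.inertia Gal(E/K) = ⊥ →
    ∃ φ : Gal(CyclotomicField ℓ K/K),
      (∀ t : CyclotomicField ℓ K, t ^ ℓ = 1 → φ t = t ^ Ideal.absNorm (P.under (𝓞 K))) ∧
      ∀ n : ℤ, (∀ x : E, (φ ^ n) (x : CyclotomicField ℓ K) = x) →
        (Nat.card (MulAction.stabilizer Gal(E/K) P) : ℤ) ∣ n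

/-- [AUX.X] **Extraction.**  `(Γ, Z)` a Galois pair over `f : K →+* Z`, `x` a unit of
`K ⊗[ℚ] ℚ_[q]` whose image lies in the block of the place `m` of `Z`.  If the class of the
idele `(… , 1, f x, 1, …)` is the norm of an idele class of `Z`, then
`f (x at q) · f (principal u) = N_Γ b` for some `u ∈ Kˣ` and some finite idele `b` of `Z`. -/
def AuxExtract : Prop :=
  ∀ (K Z Γ : Type) [Field K] [NumberField K] [Field Z] [NumberField Z] [Group Γ] [Fintype Γ]
    [MulSemiringAction Γ Z] [FaithfulSMul Γ Z] (f : K →+* Z),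
    (∀ y : Z, (∀ γ : Γ, γ • y = y) ↔ y ∈ f.range) →
  ∀ (q : Nat.Primes) (m : Ideal (SemiLocal Z q)) (x : (SemiLocal K q)ˣ)
    (hx : Units.map (semiLocalMap (q : ℕ) f).toMonoidHom x ∈ orbitUnits Γ Z q m),
    (∃ c : ClassGroupOf Z, (classRep Γ Z).ρ.norm c =
      (orbitToClass Γ Z q m).hom
        (⟨Additive.ofMul (Units.map (semiLocalMap (q : ℕ) f).toMonoidHom x), hx⟩ :
          ↥(addSub (orbitUnits Γ Z q m)))) →
    ∃ (u : Kˣ) (b : ↥(finIdele Z)),
      ideleProdMap f (Pi.mulSingle q x * principal K u) = ∏ γ : Γ, γ • (b : IdeleProd Z)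

/-- [AUX.C] **Counting.**  For a cyclic Galois pair `(Γ, Z)` and a place `m` of `Z`: if some
invariant element `a₁` of the block of `m` has the property that `n • a₁` is a norm of an idele
class only if `|D_m| ∣ n`, then every invariant element of the block which is a norm of an
idele class is a norm from the block.  (`|B^Γ / N_Γ B| = |D_m|` by the Herbrand quotient of a
block, `Bridge.LocCompMain`; so `a₁` generates `B^Γ / N_Γ B`.) -/
def AuxCount : Prop :=
  ∀ (Γ Z : Type) [Group Γ] [Fintype Γ] [IsCyclic Γ] [Field Z] [NumberField Z]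
    [MulSemiringAction Γ Z] [FaithfulSMul Γ Z] (q : Nat.Primes) (m : Ideal (SemiLocal Z q)),
    m.IsMaximal →
  ∀ a₁ : (orbitRep Γ Z q m).V, (∀ γ : Γ, (orbitRep Γ Z q m).ρ γ a₁ = a₁) →
    (∀ n : ℤ, (∃ c : ClassGroupOf Z,
        (classRep Γ Z).ρ.norm c = (orbitToClass Γ Z q m).hom (n • a₁)) →
      (Nat.card (decompGroup Γ Z q m) : ℤ) ∣ n) →
  ∀ a : (orbitRep Γ Z q m).V, (∀ γ : Γ, (orbitRep Γ Z q m).ρ γ a = a) →
    (∃ c : ClassGroupOf Z, (classRep Γ Z).ρ.norm c = (orbitToClass Γ Z q m).hom a) →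
    ∃ b : (orbitRep Γ Z q m).V, (orbitRep Γ Z q m).ρ.norm b = a

/-- [AUX.Rec] **Reciprocity for the auxiliary layer.**  `E` the data of
`CycloAux.exists_cyclic_aux` (Galois of odd degree inside `K(ζ_ℓ)`, unramified outside `ℓ`),
`q ≠ ℓ`, `m` a place of `E` above `q`: there is an invariant element `a₁` of the block of `m`
such that `n • a₁` is a norm of an idele class only if `|D_m| ∣ n`. -/
def AuxRec : Prop :=
  ∀ (K : Type) [Field K] [NumberField K] (ℓ : ℕ) [Fact ℓ.Prime]
    (E : IntermediateField K (CyclotomicField ℓ K)) [IsGalois K E] [NumberField E]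
    [Fintype Gal(E/K)],
    Odd (Nat.card Gal(E/K)) →
    (∀ Q : Ideal (𝓞 E), Q.IsPrime → Q ≠ ⊥ → (ℓ : 𝓞 E) ∉ Q → Q.inertia Gal(E/K) = ⊥) →
  ∀ (q : Nat.Primes), (q : ℕ) ≠ ℓ → ∀ (m : Ideal (SemiLocal E q)), m.IsMaximal →
    ∃ a₁ : (orbitRep Gal(E/K) E q m).V,
      (∀ γ : Gal(E/K), (orbitRep Gal(E/K) E q m).ρ γ a₁ = a₁) ∧
      ∀ n : ℤ, (∃ c : ClassGroupOf E,
          (classRep Gal(E/K) E).ρ.norm c = (orbitToClass Gal(E/K) E q m).hom (n • a₁)) →
        (Nat.card (decompGroup Gal(E/K) E q m) : ℤ) ∣ n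

end Fermat.Agent.CFT.Global.AuxL
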