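/-
CFT program, layer Global, [AUX.C]: the count `AuxL.AuxCount` (helper19).

For a cyclic Galois pair `(Γ, Z)` and a place `m` of `Z` the group `B^Γ / N_Γ B` of the block
`B` of `m` has `|D_m|` elements (`Bridge.LocCompMain`: Shapiro for a block, the local `H²`
count and periodicity for cyclic groups).  Hence an invariant element `a₁` of the block with
"`n • a₁` is a norm of an idele class only if `|D_m| ∣ n`" generates `B^Γ / N_Γ B`, and every
invariant element of the block which is a norm of an idele class is a norm from the block.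
-/
import Mathlib
import Fermat.Agent.CFT.Global.AuxL.Plan
import Fermat.Agent.CFT.Bridge.LocCompMain

set_option autoImplicit false

open scoped TensorProduct Pointwise
open scoped Fermat.Agent.CFT.Global

namespace Fermat.Agent.CFT.Global.AuxL.Count

open CategoryTheory groupCohomology
open Fermat.Agent.CFT Fermat.Agent.CFT.Global Fermat.Agent.CFT.Herbrand NumberField

/-! ## Abstract group theory -/

section Abstract

variable {A : Type*} [AddCommGroup A]

/-- If `N ≤ I` has finite index `d` in `I` and `a₁ ∈ I` satisfies `n • a₁ ∈ N → d ∣ n`, then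
`a₁` generates `I` modulo `N`. -/
theorem exists_zsmul_sub_mem (N I : AddSubgroup A) (d : ℕ) (hd : d ≠ 0)
    (hidx : N.relIndex I = d) (a₁ : A) (ha₁ : a₁ ∈ I)
    (h : ∀ n : ℤ, n • a₁ ∈ N → (d : ℤ) ∣ n) (a : A) (ha : a ∈ I) :
    ∃ n : ℤ, a - n • a₁ ∈ N := by
  classical
  have hcard : Nat.card (↥I ⧸ N.addSubgroupOf I) = d := by
    rw [← hidx]; rfl
  have : Finite (↥I ⧸ N.addSubgroupOf I) := Nat.finite_of_card_ne_zero (by rw [hcard]; exact hd)
  set x : ↥I ⧸ N.addSubgroupOf I := QuotientAddGroup.mk ⟨a₁, ha₁⟩ with hx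
  have hzero : ∀ n : ℤ, n • x = 0 → (d : ℤ) ∣ n := by
    intro n hn
    apply h n
    have h1 : n • x = QuotientAddGroup.mk (n • (⟨a₁, ha₁⟩ : ↥I)) := rfl
    rw [h1, QuotientAddGroup.eq_zero_iff] at hn
    exact hn
  have hord : addOrderOf x = d := by
    apply Nat.dvd_antisymm
    · rw [← hcard]; exact addOrderOf_dvd_natCard x
    · have := hzero (addOrderOf x) (by rw [natCast_zsmul]; exact addOrderOf_nsmul_eq_zero x)
      exact_mod_cast this
  have htop : AddSubgroup.zmultiples x = ⊤ := by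
    apply AddSubgroup.eq_top_of_card_eq
    rw [Nat.card_zmultiples, hord, hcard]
  have hmem : (QuotientAddGroup.mk ⟨a, ha⟩ : ↥I ⧸ N.addSubgroupOf I) ∈ AddSubgroup.zmultiples x := by
    rw [htop]; exact AddSubgroup.mem_top _
  obtain ⟨n, hn⟩ := AddSubgroup.mem_zmultiples_iff.1 hmem
  refine ⟨n, ?_⟩
  have h1 : n • x = QuotientAddGroup.mk (n • (⟨a₁, ha₁⟩ : ↥I)) := rfl
  rw [h1] at hn
  have h2 := QuotientAddGroup.eq.1 hn
  -- `-(n • a₁) + a ∈ N`
  have h3 : ((-(n • (⟨a₁, ha₁⟩ : ↥I)) + ⟨a, ha⟩ : ↥I) : A) ∈ N := h2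
  have h4 : ((-(n • (⟨a₁, ha₁⟩ : ↥I)) + ⟨a, ha⟩ : ↥I) : A) = a - n • a₁ := by
    push_cast
    abel
  rw [h4] at h3
  exact h3

/-- If `N` has finite index `d` in `I`, then `d • a ∈ N` for `a ∈ I`. -/
theorem nsmul_mem_of_relIndex (N I : AddSubgroup A) (d : ℕ)
    (hidx : N.relIndex I = d) (a : A) (ha : a ∈ I) : d • a ∈ N := by
  have hcard : Nat.card (↥I ⧸ N.addSubgroupOf I) = d := by
    rw [← hidx]; rfl
  have h1 : d • (QuotientAddGroup.mk ⟨a, ha⟩ : ↥I ⧸ N.addSubgroupOf I) = 0 := by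
    rw [← hcard]; exact card_nsmul_eq_zero'
  have h2 : d • (QuotientAddGroup.mk ⟨a, ha⟩ : ↥I ⧸ N.addSubgroupOf I) =
      QuotientAddGroup.mk (d • (⟨a, ha⟩ : ↥I)) := rfl
  rw [h2, QuotientAddGroup.eq_zero_iff] at h1
  exact h1

end Abstract

/-! ## The count for a block -/

/-- Morphisms of representations commute with the norm. -/
theorem hom_norm_apply {k G : Type} [CommRing k] [Group G] [Fintype G] {A B : Rep.{0} k G}
    (f : A ⟶ B) (x : A.V) : f.hom (A.ρ.norm x) = B.ρ.norm (f.hom x) := by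
  simp [Representation.norm, Rep.hom_comm_apply]

/-- For a cyclic Galois pair the group `B^Γ / N_Γ B` of a block has `|D_m|` elements. -/
theorem h0_orbitRep (Γ Z : Type) [Group Γ] [Fintype Γ] [IsCyclic Γ] [Field Z] [NumberField Z]
    [MulSemiringAction Γ Z] [FaithfulSMul Γ Z] (q : ℕ) [Fact q.Prime]
    (m : Ideal (SemiLocal Z q)) (hm : m.IsMaximal) :
    h0 (ofRepresentation (orbitRep Γ Z q m).ρ) = Nat.card (decompGroup Γ Z q m) := by
  obtain ⟨g, hg⟩ := IsCyclic.exists_generator (α := Γ)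
  have hg' : ∀ x : Γ, x ∈ Subgroup.zpowers g := hg
  have e2 := Equiv.ofBijective _ (SemiLocalGalois.orbitShapiro Γ Z q m hm 2)
  have c2 : Nat.card (H2 (orbitRep Γ Z q m)) = Nat.card (decompGroup Γ Z q m) := by
    rw [← Bridge.LocCompMain.locH2Card Γ Z q m hm]
    exact Nat.card_congr e2
  rw [← c2]
  exact (Cyclic.card_H2_eq_h0 (orbitRep Γ Z q m) hg').symm

/-- The count in abstract form: `R ⟶ C` a morphism of representations of a finite group with
`|R^G / N R| = d ≠ 0`, and `a₁ ∈ R^G` such that `φ (n • a₁) ∈ N C` only if `d ∣ n`.  Then every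
`a ∈ R^G` with `φ a ∈ N C` lies in `N R`. -/
theorem exists_norm_of_generator {k G : Type} [CommRing k] [Group G] [Fintype G]
    {R C : Rep.{0} k G} (φ : R ⟶ C) (d : ℕ) (hd0 : d ≠ 0) (hidx : h0 (repEnd R) = d)
    (a₁ : R.V) (ha₁ : ∀ γ : G, R.ρ γ a₁ = a₁)
    (hdiv : ∀ n : ℤ, (∃ c : C.V, C.ρ.norm c = φ.hom (n • a₁)) → (d : ℤ) ∣ n)
    (a : R.V) (ha : ∀ γ : G, R.ρ γ a = a) (hc : ∃ c : C.V, C.ρ.norm c = φ.hom a) :
    ∃ b : R.V, R.ρ.norm b = a := by
  have hidx' : (nEnd (repEnd R)).range.relIndex (invariants (repEnd R)) = d := hidx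
  have hI : ∀ x : R.V, x ∈ invariants (repEnd R) ↔ ∀ γ : G, R.ρ γ x = x := fun x => Iff.rfl
  have hN : ∀ x : R.V, x ∈ (nEnd (repEnd R)).range ↔ ∃ b : R.V, R.ρ.norm b = x := by
    intro x
    rw [nEnd_repEnd]
    exact Iff.rfl
  -- `n • a₁` a norm from `R` ⟹ `d ∣ n`
  have h1 : ∀ n : ℤ, n • a₁ ∈ (nEnd (repEnd R)).range → (d : ℤ) ∣ n := by
    intro n hn
    obtain ⟨b, hb⟩ := (hN _).1 hn
    refine hdiv n ⟨φ.hom b, ?_⟩
    rw [← hom_norm_apply, hb]
  obtain ⟨n, hn⟩ := exists_zsmul_sub_mem _ _ d hd0 hidx' a₁ ((hI a₁).2 ha₁) h1 a ((hI a).2 ha)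
  obtain ⟨b', hb'⟩ := (hN _).1 hn
  obtain ⟨c, hc⟩ := hc
  have h2 : (d : ℤ) ∣ n := by
    refine hdiv n ⟨c - φ.hom b', ?_⟩
    rw [map_sub, hc, ← hom_norm_apply, hb', map_sub, sub_sub_cancel]
  obtain ⟨k, rfl⟩ := h2
  have h3 : d • a₁ ∈ (nEnd (repEnd R)).range :=
    nsmul_mem_of_relIndex _ _ d hidx' a₁ ((hI a₁).2 ha₁)
  have h4 : ((d : ℤ) * k) • a₁ ∈ (nEnd (repEnd R)).range := by
    rw [mul_comm, mul_smul, natCast_zsmul]
    exact AddSubgroup.zsmul_mem _ h3 k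
  have h5 : a ∈ (nEnd (repEnd R)).range := by
    have := add_mem hn h4
    rwa [sub_add_cancel] at this
  exact (hN a).1 h5

/-- **[AUX.C]** the count. -/
theorem auxCount : AuxL.AuxCount := by
  intro Γ Z _ _ _ _ _ _ _ q m hm a₁ ha₁ hdiv a ha hc
  exact exists_norm_of_generator (orbitToClass Γ Z q m) (Nat.card (decompGroup Γ Z q m))
    Nat.card_pos.ne' (h0_orbitRep Γ Z q m hm) a₁ ha₁ hdiv a ha hc

end Fermat.Agent.CFT.Global.AuxL.Count
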