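/-
CFT program, layer Global, [AUX]: the extraction step `AuxL.AuxExtract` (helper13).

`(Γ, Z)` a Galois pair over `f : K →+* Z`, `x` a unit of `K ⊗[ℚ] ℚ_[q]` whose image lies in the
block of a place `m` of `Z`.  If the class of the idele `(…, 1, f x, 1, …)` is the `Γ`-norm of an
idele class of `Z`, then `f (x at q) · f (principal u) = N_Γ b` for some `u ∈ Kˣ` and a finite
idele `b` of `Z`.

Proof: lift the class to a finite idele `y`; then `N_Γ y = (f x at q) · principal β` with
`β ∈ Zˣ`; both other factors are `Γ`-fixed, and `principal` is injective and equivariant, so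
`β` is `Γ`-fixed, hence `β = f u`.
-/
import Mathlib
import Fermat.Agent.CFT.Global.Defs
import Fermat.Agent.CFT.Global.ClassDescent
import Fermat.Agent.CFT.Global.AuxL.Plan

set_option autoImplicit false

open scoped TensorProduct Pointwise
open scoped Fermat.Agent.CFT.Global

namespace Fermat.Agent.CFT.Global.AuxL.Extract

open Fermat.Agent.CFT.Global

section Generic

variable {L : Type} [Field L] [CharZero L]

/-- The class of a product of finite ideles is the sum of the classes. -/
theorem sum_mkC {ι : Type*} (s : Finset ι) (x : ι → IdeleProd L)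
    (hx : ∀ i, x i ∈ finIdele L) :
    ∑ i ∈ s, ClassDescent.mkC (x i) (hx i) =
      ClassDescent.mkC (∏ i ∈ s, x i) (Subgroup.prod_mem _ fun i _ => hx i) := by
  classical
  induction s using Finset.induction_on with
  | empty => rfl
  | insert a s ha ih =>
    rw [Finset.sum_insert ha, ih]
    have h1 : ∏ i ∈ insert a s, x i = x a * ∏ i ∈ s, x i := Finset.prod_insert ha
    have h2 : ClassDescent.mkC (x a * ∏ i ∈ s, x i)
        (mul_mem (hx a) (Subgroup.prod_mem _ fun i _ => hx i)) =
        ClassDescent.mkC (x a) (hx a) +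
          ClassDescent.mkC (∏ i ∈ s, x i) (Subgroup.prod_mem _ fun i _ => hx i) := rfl
    rw [← h2]
    congr 1
    exact h1.symm

variable (G : Type) [Group G] [Fintype G] [MulSemiringAction G L]

/-- The norm of the class of a finite idele is the class of the product of its translates. -/
theorem norm_mkC (y : IdeleProd L) (hy : y ∈ finIdele L) :
    (classRep G L).ρ.norm (ClassDescent.mkC y hy) =
      ClassDescent.mkC (∏ g : G, g • y)
        (Subgroup.prod_mem _ fun g _ => smul_mem_finIdele G L g hy) := by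
  have h1 : (classRep G L).ρ.norm (ClassDescent.mkC y hy) =
      ∑ g : G, (classRep G L).ρ g (ClassDescent.mkC y hy) := by
    rw [Representation.norm]
    exact LinearMap.sum_apply _ _ _
  rw [h1]
  exact sum_mkC Finset.univ (fun g : G => g • y) (fun g => smul_mem_finIdele G L g hy)

variable {L' : Type} [Field L'] [CharZero L']

/-- `ideleProdMap` of a one-component idele. -/
theorem ideleProdMap_mulSingle (f : L →+* L') (q : Nat.Primes) (x : (SemiLocal L q)ˣ) :
    ideleProdMap f (Pi.mulSingle q x) =
      Pi.mulSingle q (Units.map (semiLocalMap (q : ℕ) f).toMonoidHom x) := by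
  funext q'
  rw [ideleProdMap_apply]
  by_cases h : q' = q
  · subst h
    rw [Pi.mulSingle_eq_same, Pi.mulSingle_eq_same]
  · rw [Pi.mulSingle_eq_of_ne h, Pi.mulSingle_eq_of_ne h, map_one]

/-- Elements of the image of `semiLocalMap q f` are fixed by a group fixing `f(L)`. -/
theorem smul_semiLocalMap_of_fixed {Γ : Type} [Group Γ] [MulSemiringAction Γ L'] (f : L →+* L')
    (hf : ∀ (γ : Γ) (a : L), γ • f a = f a) (q : ℕ) [Fact q.Prime] (γ : Γ) (x : SemiLocal L q) :
    γ • semiLocalMap q f x = semiLocalMap q f x := by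
  induction x using TensorProduct.induction_on with
  | zero => simp
  | tmul a b => rw [semiLocalMap_tmul, smul_tmul_eq, hf]
  | add x y hx hy => rw [map_add, smul_add, hx, hy]

end Generic

/-- **[AUX.X] Extraction** (`AuxL.AuxExtract`), unconditional. -/
theorem auxExtract : AuxL.AuxExtract := by
  intro K Z Γ _ _ _ _ _ _ _ _ f hfix q m x hx ⟨c, hc⟩
  classical
  have hf : ∀ (γ : Γ) (a : K), γ • f a = f a := fun γ a => (hfix (f a)).mpr ⟨a, rfl⟩ γ
  obtain ⟨y, hy, rfl⟩ := ClassDescent.exists_mkC c
  -- the right-hand side as a class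
  have hsingle : Pi.mulSingle q (Units.map (semiLocalMap (q : ℕ) f).toMonoidHom x) ∈ finIdele Z := by
    refine Set.Finite.subset (Set.finite_singleton q) ?_
    intro q' hq'
    by_contra h
    have h' : q' ≠ q := h
    exact hq' (by rw [Pi.mulSingle_eq_of_ne h']; exact one_mem _)
  have hrhs : (orbitToClass Γ Z q m).hom
      (⟨Additive.ofMul (Units.map (semiLocalMap (q : ℕ) f).toMonoidHom x), hx⟩ :
        ↥(addSub (orbitUnits Γ Z q m))) =
      ClassDescent.mkC (Pi.mulSingle q (Units.map (semiLocalMap (q : ℕ) f).toMonoidHom x))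
        hsingle := rfl
  rw [hrhs, norm_mkC] at hc
  obtain ⟨β, hβ⟩ := (ClassDescent.mkC_eq_mkC_iff _ _).mp hc
  -- `N_Γ y = (f x at q) * principal β`
  have hprod : ∏ γ : Γ, γ • y =
      Pi.mulSingle q (Units.map (semiLocalMap (q : ℕ) f).toMonoidHom x) * principal Z β := by
    rw [hβ, mul_div_cancel]
  -- the single idele is fixed
  have hsfix : ∀ δ : Γ, δ • (Pi.mulSingle q (Units.map (semiLocalMap (q : ℕ) f).toMonoidHom x) :
      IdeleProd Z) = Pi.mulSingle q (Units.map (semiLocalMap (q : ℕ) f).toMonoidHom x) := by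
    intro δ
    funext q'
    show δ • (Pi.mulSingle q (Units.map (semiLocalMap (q : ℕ) f).toMonoidHom x) : IdeleProd Z) q'
      = _
    by_cases h : q' = q
    · subst h
      rw [Pi.mulSingle_eq_same]
      apply Units.ext
      rw [coe_smul_units]
      exact smul_semiLocalMap_of_fixed f hf (q' : ℕ) δ (x : SemiLocal K q')
    · rw [Pi.mulSingle_eq_of_ne h, smul_one]
  -- the product is fixed
  have hpfix : ∀ δ : Γ, δ • (∏ γ : Γ, γ • y) = ∏ γ : Γ, γ • y := by
    intro δ
    rw [Finset.smul_prod']
    simp_rw [← mul_smul]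
    exact Fintype.prod_equiv (Equiv.mulLeft δ) _ _ (fun γ => rfl)
  -- hence `β` is fixed
  have hβfix : ∀ δ : Γ, δ • β = β := by
    intro δ
    apply ClassDescent.principal_injective
    rw [← smul_principal]
    have h1 := hpfix δ
    rw [hprod, smul_mul', hsfix δ] at h1
    exact mul_left_cancel h1
  obtain ⟨u₀, hu₀⟩ := (hfix (β : Z)).mp (fun γ => by
    have := congrArg Units.val (hβfix γ)
    exact this)
  have hu₀0 : u₀ ≠ 0 := by
    rintro rfl
    rw [map_zero] at hu₀
    exact β.ne_zero hu₀.symm
  refine ⟨Units.mk0 u₀ hu₀0, ⟨y, hy⟩, ?_⟩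
  rw [map_mul, ideleProdMap_mulSingle, ideleProdMap_principal, hprod]
  congr 2
  apply Units.ext
  exact hu₀

end Fermat.Agent.CFT.Global.AuxL.Extract
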