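/-
CFT program, layer Global, [AUX]: the auxiliary layer `LGChase.AuxLayer` — ASSEMBLY (helper25).

`auxLayerCyc : AuxRec → AuxCount → LGChase.AuxLayerCyc` and
`auxLayer : AuxRec → AuxCount → LGChase.AuxLayer`.

For a `p`-group Galois pair `(G, L)`, `p` odd, and a place `m` of `L` above `q`: `K = L^G`,
`v` the prime of `𝓞 K` below `m`; `E` the cyclic `p`-layer of `K(ζ_ℓ)/K` given by
`CycloAux.exists_cyclic_aux K p 1 v {q}` (so `ℓ ≠ q`, `E/K` unramified outside `ℓ`, and the
decomposition groups above `v` have order divisible by `p`); `(G₁, M)` the compositum of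
`(G, L)` with `(Gal(E/K), E)` (`CompositumPair.exists_compositum_pGroup`); `m'` a place of `M`
above `m` (`OrbitDescent.exists_maximal_comap_eq`).  The place of `E` below `m'` lies above `v`
(`DecompDict.comapMax_comapMax_eq`), hence its decomposition group is nontrivial
(`DecompDict.decompGroup_ne_bot_of_under`), and the norm clause is `AuxCount` applied to the
element of `AuxRec`.
-/
import Mathlib
import Fermat.Agent.CFT.Global.AuxL.Plan
import Fermat.Agent.CFT.Global.LGChase.Cyc
import Fermat.Agent.CFT.Global.CycloAux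
import Fermat.Agent.CFT.Global.CompositumPair
import Fermat.Agent.CFT.Global.OrbitDescent
import Fermat.Agent.CFT.Global.DecompDict
import Fermat.Agent.CFT.Global.GaloisPair

set_option autoImplicit false
set_option linter.style.haveILetI false

open scoped TensorProduct Pointwise
open scoped Fermat.Agent.CFT.Global

namespace Fermat.Agent.CFT.Global.AuxL

open Fermat.Agent.CFT.Global NumberField

/-- **[AUX], norm form**, from the reciprocity statement `AuxRec` and the count `AuxCount`. -/
theorem auxLayerCyc (hRec : AuxRec) (hCount : AuxCount) : LGChase.AuxLayerCyc := by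
  intro p hp hp2 G L _ _ _ _ _ _ hG q m hm
  -- the base field and the place of `K` below `m`
  haveI : NumberField (TowerSplit.Base G L) := GaloisPair.instNumberFieldBase G L
  let mL : MaximalSpectrum (SemiLocal L q) := ⟨m, hm⟩
  let mK : MaximalSpectrum (SemiLocal (TowerSplit.Base G L) q) :=
    DecompDict.comapMax q (algebraMap (TowerSplit.Base G L) L) mL
  have hv : (CountDict.placeBelow mK).asIdeal.IsPrime := (CountDict.placeBelow mK).isPrime
  have hv0 : (CountDict.placeBelow mK).asIdeal ≠ ⊥ := (CountDict.placeBelow mK).ne_bot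
  -- the auxiliary cyclic layer
  obtain ⟨ℓ, hℓ, E, hℓT, -, -, hgal, hcyc, ⟨k, hk⟩, hunr, hstab⟩ :=
    CycloAux.exists_cyclic_aux (TowerSplit.Base G L) p 1 (CountDict.placeBelow mK).asIdeal hv hv0
      {(q : ℕ)}
  have hqℓ : (q : ℕ) ≠ ℓ := by
    intro h
    exact hℓT (by rw [← h]; exact Finset.mem_singleton_self _)
  haveI : NeZero ℓ := ⟨hℓ.out.ne_zero⟩
  haveI : FiniteDimensional (TowerSplit.Base G L) (CyclotomicField ℓ (TowerSplit.Base G L)) :=
    IsCyclotomicExtension.finiteDimensional {ℓ} _ _
  have hΓ : IsPGroup p Gal(E/(TowerSplit.Base G L)) := IsPGroup.of_card hk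
  -- the compositum
  obtain ⟨M, iM, iNM, G₁, iG₁, iF₁, iA₁, f, π, j, ρ, hfaith, hT, hTZ, hcompat, -, -, hG₁, -,
    hNE, hfaithE⟩ := CompositumPair.exists_compositum_pGroup p G L E hΓ
  -- a place of `M` above `m`
  obtain ⟨m', hm', hmm'⟩ := OrbitDescent.exists_maximal_comap_eq hT q m hm
  let mM : MaximalSpectrum (SemiLocal M q) := ⟨m', hm'⟩
  let mE : MaximalSpectrum (SemiLocal E q) := DecompDict.comapMax q j mM
  -- the place of `E` below `m'` lies above the place of `K` below `m`
  have hover : DecompDict.comapMax q (algebraMap (TowerSplit.Base G L) E) mE = mK := by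
    have h1 : DecompDict.comapMax q f mM = mL := MaximalSpectrum.ext hmm'
    have h2 := DecompDict.comapMax_comapMax_eq q (algebraMap (TowerSplit.Base G L) E)
      (algebraMap (TowerSplit.Base G L) L) j f (RingHom.ext fun x => hcompat x) mM
    rw [h1] at h2
    exact h2
  letI iFΓ : Fintype Gal(E/(TowerSplit.Base G L)) := Fintype.ofFinite _
  refine ⟨M, iM, iNM, G₁, iG₁, iF₁, iA₁, f, π, E, inferInstance, hNE,
    Gal(E/(TowerSplit.Base G L)), inferInstance, iFΓ, inferInstance, j, ρ, m', hfaith, hG₁ hG,
    hT, hfaithE, hTZ, hcyc, hm', hmm', ?_, ?_⟩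
  · -- the decomposition group is nontrivial
    refine DecompDict.decompGroup_ne_bot_of_under q (TowerSplit.Base G L) E
      Gal(E/(TowerSplit.Base G L)) mE p hp.out.one_lt (fun Q hQ hQv => ?_)
    rw [hover] at hQv
    have h := hstab Q hQ hQv
    rwa [pow_one] at h
  · -- the norm clause
    have hodd : Odd (Nat.card Gal(E/(TowerSplit.Base G L))) := by
      rw [hk]
      exact (hp.out.odd_of_ne_two hp2).pow
    obtain ⟨a₁, h₁, hrec⟩ := hRec (TowerSplit.Base G L) ℓ E hodd hunr q hqℓ mE.asIdeal
      mE.isMaximal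
    exact hCount Gal(E/(TowerSplit.Base G L)) E q mE.asIdeal mE.isMaximal a₁ h₁ hrec

/-- **[AUX]** `LGChase.AuxLayer`, from the reciprocity statement `AuxRec` and the count
`AuxCount`. -/
theorem auxLayer (hRec : AuxRec) (hCount : AuxCount) : LGChase.AuxLayer :=
  LGChase.auxLayer_of_cyc (auxLayerCyc hRec hCount)

end Fermat.Agent.CFT.Global.AuxL
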