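/-
CFT program, layer Global, [AUX.U]: a uniformizer in the block of a place (helper41).

For a number field `K`, a rational prime `q` and a maximal ideal `m` of `K ⊗[ℚ] ℚ_[q]` (a place
of `K` above `q`) there is a unit `x` of `K ⊗[ℚ] ℚ_[q]` which is `≡ 1` modulo every other
maximal ideal and whose divisor (helper84's `QBridge.divq`) is the prime of `𝓞 K` below `m`:
this is the contract `AuxL.AuxUnif` of `Global/AuxL/Plan.lean` (v3).  Consequently
`v_q(N x) = f` (the residue degree), and for every prime `ℓ ≠ q` the local cyclotomic character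
of `x` modulo `ℓ` is the absolute norm of that prime (the v1 form of the contract).

* `blockUnit e he x` : the unit `e x + (1 - e)` for an idempotent `e`;
* `exists_block_uniformizer` : the element, with its divisor;
* `valuation_norm_of_divq` : `v_q(N x) = f` for such an element;
* `localChar_of_divq` : its local character modulo `ℓ ^ e` (`ℓ ≠ q`) is `q ^ f`;
* `auxUnif : AuxL.AuxUnif`;
* `exists_unit_localChar_eq` : the same element with its local cyclotomic character.
-/
import Mathlib
import Fermat.Agent.CFT.Global.AuxL.Plan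
import Fermat.Agent.CFT.Global.QBridgeNorm
import Fermat.Agent.CFT.Global.CycloChar
import Fermat.Agent.CFT.Bridge.CompPlace

set_option autoImplicit false

open scoped TensorProduct
open scoped Fermat.Agent.CFT.Global

namespace Fermat.Agent.CFT.Global.AuxL.Unif

open Fermat.Agent.CFT.Global NumberField
open Fermat.Agent.CFT.Bridge

attribute [local instance] Algebra.TensorProduct.rightAlgebra

/-! ### The block part of a unit at an idempotent -/

section Block

variable {R : Type*} [CommRing R]

/-- For an idempotent `e` and a unit `x`, the unit `e x + (1 - e)` (equal to `x` on the block of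
`e` and to `1` on the complement). -/
def blockUnit (e : R) (he : IsIdempotentElem e) (x : Rˣ) : Rˣ where
  val := e * x + (1 - e)
  inv := e * ((x⁻¹ : Rˣ) : R) + (1 - e)
  val_inv := by
    have hee : e * e = e := he
    have hx : (x : R) * ((x⁻¹ : Rˣ) : R) = 1 := x.mul_inv
    linear_combination ((x : R) * ((x⁻¹ : Rˣ) : R) - x - ((x⁻¹ : Rˣ) : R) + 1) * hee + e * hx
  inv_val := by
    have hee : e * e = e := he
    have hx : ((x⁻¹ : Rˣ) : R) * (x : R) = 1 := x.inv_mul
    linear_combination (((x⁻¹ : Rˣ) : R) * (x : R) - x - ((x⁻¹ : Rˣ) : R) + 1) * hee + e * hx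

theorem coe_blockUnit (e : R) (he : IsIdempotentElem e) (x : Rˣ) :
    ((blockUnit e he x : Rˣ) : R) = e * x + (1 - e) := rfl

theorem blockUnit_sub_self_mem (e : R) (he : IsIdempotentElem e) (x : Rˣ) (I : Ideal R)
    (h : 1 - e ∈ I) : ((blockUnit e he x : Rˣ) : R) - x ∈ I := by
  have : ((blockUnit e he x : Rˣ) : R) - x = (1 - e) * (1 - (x : R)) := by
    rw [coe_blockUnit]; ring
  rw [this]
  exact I.mul_mem_right _ h

theorem blockUnit_sub_one_mem (e : R) (he : IsIdempotentElem e) (x : Rˣ) (I : Ideal R)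
    (h : e ∈ I) : ((blockUnit e he x : Rˣ) : R) - 1 ∈ I := by
  have : ((blockUnit e he x : Rˣ) : R) - 1 = e * ((x : R) - 1) := by
    rw [coe_blockUnit]; ring
  rw [this]
  exact I.mul_mem_right _ h

end Block

/-! ### The uniformizer of a block -/

section Unif

variable (K : Type) [Field K] [NumberField K] (q : ℕ) [Fact q.Prime]

/-- Two units with the same image in the component `m` have the same divisor at the prime below
`m`. -/
theorem divq_eq_of_sub_mem (m : Ideal (SemiLocal K q)) [hm : m.IsMaximal]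
    (x y : (SemiLocal K q)ˣ) (h : (x : SemiLocal K q) - y ∈ m) :
    Multiplicative.toAdd (QBridge.divq q K x) (CompPlace.compPrimeOver K q m) =
      Multiplicative.toAdd (QBridge.divq q K y) (CompPlace.compPrimeOver K q m) := by
  have hu : CompPlace.compUnits K q m x = CompPlace.compUnits K q m y := by
    apply Units.ext
    rw [CompPlace.coe_compUnits, CompPlace.coe_compUnits]
    exact (Ideal.Quotient.eq).mpr h
  have h1 := CompPlace.divq_eq_ordZ K q m x
  have h2 := CompPlace.divq_eq_ordZ K q m y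
  rw [hu] at h1
  exact h1.trans h2.symm

/-- **A uniformizer in the block of a place**: a unit of `K ⊗[ℚ] ℚ_[q]` which is `≡ 1` modulo
every maximal ideal other than `m` and whose divisor is the prime of `𝓞 K` below `m`. -/
theorem exists_block_uniformizer (m : Ideal (SemiLocal K q)) [hm : m.IsMaximal] :
    ∃ x : (SemiLocal K q)ˣ,
      (∀ m' : Ideal (SemiLocal K q), m'.IsMaximal → m' ≠ m → (x : SemiLocal K q) - 1 ∈ m') ∧
      Multiplicative.toAdd (QBridge.divq q K x) (CompPlace.compPrimeOver K q m) = 1 ∧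
      ∀ w : QBridge.PrimesOver q K, w ≠ CompPlace.compPrimeOver K q m →
        Multiplicative.toAdd (QBridge.divq q K x) w = 0 := by
  classical
  have : IsArtinianRing (K ⊗[ℚ] ℚ_[q]) := CountDict.isArtinianRing q K
  have : IsReduced (K ⊗[ℚ] ℚ_[q]) := CountDict.isReduced q K
  set M : MaximalSpectrum (K ⊗[ℚ] ℚ_[q]) := ⟨m, hm⟩ with hM
  set e : K ⊗[ℚ] ℚ_[q] := CountDict.idemOfMax M with he
  have hid : IsIdempotentElem e := CountDict.isIdempotentElem_idemOfMax M
  -- a unit with divisor `1` at the prime below `m`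
  obtain ⟨x₀, hx₀⟩ := QBridge.divq_surjective (q := q) (L := K)
    (Multiplicative.ofAdd (fun w => if w = CompPlace.compPrimeOver K q m then (1 : ℤ) else 0))
  have hx₀' : Multiplicative.toAdd (QBridge.divq q K x₀) (CompPlace.compPrimeOver K q m) = 1 := by
    rw [hx₀]
    show (if CompPlace.compPrimeOver K q m = CompPlace.compPrimeOver K q m then (1 : ℤ) else 0) = 1
    rw [if_pos rfl]
  refine ⟨blockUnit e hid x₀, ?_, ?_, ?_⟩
  · intro m' hm' hne
    refine blockUnit_sub_one_mem e hid x₀ m' ?_
    have hne' : (⟨m', hm'⟩ : MaximalSpectrum (K ⊗[ℚ] ℚ_[q])) ≠ M := by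
      intro h
      exact hne (congrArg MaximalSpectrum.asIdeal h)
    exact CountDict.idemOfMax_mem hne'
  · rw [← hx₀']
    refine divq_eq_of_sub_mem K q m _ _ ?_
    exact blockUnit_sub_self_mem e hid x₀ m (CountDict.idemOfMax_sub_one_mem M)
  · intro w hw
    have := w.1.isPrime
    obtain ⟨m', hm', hc⟩ := CompPlace.exists_compCenter_eq K q w.1.asIdeal w.2
    have hw' : w = @CompPlace.compPrimeOver K _ _ q _ m' hm' := by
      apply Subtype.ext
      apply IsDedekindDomain.HeightOneSpectrum.ext
      exact hc.symm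
    have hne : m' ≠ m := by
      rintro rfl
      exact hw hw'
    have hne' : (⟨m', hm'⟩ : MaximalSpectrum (K ⊗[ℚ] ℚ_[q])) ≠ M := by
      intro h
      exact hne (congrArg MaximalSpectrum.asIdeal h)
    have h1 : ((blockUnit e hid x₀ : (SemiLocal K q)ˣ) : SemiLocal K q) -
        ((1 : (SemiLocal K q)ˣ) : SemiLocal K q) ∈ m' := by
      rw [Units.val_one]
      exact blockUnit_sub_one_mem e hid x₀ m' (CountDict.idemOfMax_mem hne')
    have h2 := @divq_eq_of_sub_mem K _ _ q _ m' hm' _ _ h1
    rw [hw', h2, map_one]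
    rfl

/-- The `q`-adic valuation of the norm of a unit whose divisor is a single prime `w` above `q`
is the residue degree of `w`. -/
theorem valuation_norm_of_divq (w₀ : QBridge.PrimesOver q K) (x : (SemiLocal K q)ˣ)
    (h1 : Multiplicative.toAdd (QBridge.divq q K x) w₀ = 1)
    (h0 : ∀ w : QBridge.PrimesOver q K, w ≠ w₀ →
      Multiplicative.toAdd (QBridge.divq q K x) w = 0) :
    Padic.valuation (Algebra.norm ℚ_[q] (x : K ⊗[ℚ] ℚ_[q])) = QBridge.fDeg q K w₀ := by
  rw [QBridge.valuation_norm_eq, finsum_eq_single _ w₀, h1, mul_one]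
  intro w hw
  rw [h0 w hw, mul_zero]

/-- The local cyclotomic character modulo `ℓ ^ e` (`ℓ ≠ q`) of a unit whose divisor is a single
prime `w` above `q` is `q ^ f_w`, i.e. the absolute norm of `w`. -/
theorem localChar_of_divq (ℓ e : ℕ) [Fact ℓ.Prime] (hq : q ≠ ℓ) (w₀ : QBridge.PrimesOver q K)
    (x : (SemiLocal K q)ˣ)
    (h1 : Multiplicative.toAdd (QBridge.divq q K x) w₀ = 1)
    (h0 : ∀ w : QBridge.PrimesOver q K, w ≠ w₀ →
      Multiplicative.toAdd (QBridge.divq q K x) w = 0) :
    ((CycloChar.localChar K ℓ e q x : (ZMod (ℓ ^ e))ˣ) : ZMod (ℓ ^ e)) =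
      ((Ideal.absNorm w₀.1.asIdeal : ℕ) : ZMod (ℓ ^ e)) := by
  rw [CycloChar.localChar_apply, CycloChar.padicChar_of_ne q ℓ e hq, CycloChar.coe_localNorm,
    CycloChar.normFun_eq_norm, valuation_norm_of_divq K q w₀ x h1 h0, zpow_natCast,
    Units.val_pow_eq_pow_val, ZMod.coe_unitOfCoprime, QBridge.absNorm_eq_pow_fDeg, Nat.cast_pow]

end Unif

/-- The prime above `q` of helper46's dictionary is `CountDict.placeBelow`. -/
theorem compPrimeOver_eq_placeBelow (K : Type) [Field K] [NumberField K] (q : ℕ) [Fact q.Prime]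
    (m : MaximalSpectrum (K ⊗[ℚ] ℚ_[q])) :
    haveI := m.isMaximal
    CompPlace.compPrimeOver K q m.asIdeal =
      (⟨CountDict.placeBelow m, CountDict.natCast_mem_placeBelow m⟩ : QBridge.PrimesOver q K) := by
  haveI := m.isMaximal
  apply Subtype.ext
  apply IsDedekindDomain.HeightOneSpectrum.ext
  exact CompPlace.compCenter_eq_placeBelow K q m

/-- **[AUX.U]** The contract `AuxL.AuxUnif` of `Global/AuxL/Plan.lean`. -/
theorem auxUnif : AuxL.AuxUnif := by
  intro K _ _ q _ m
  haveI := m.isMaximal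
  obtain ⟨x, hx1, hx2, hx3⟩ := exists_block_uniformizer K q m.asIdeal
  rw [compPrimeOver_eq_placeBelow K q m] at hx2 hx3
  exact ⟨x, hx1, hx2, hx3⟩

/-- The first version of the contract (Plan v1): for every prime `ℓ ≠ q` the uniformizer of the
block of `m` has local cyclotomic character modulo `ℓ` equal to the absolute norm of the prime
below `m`. -/
theorem exists_unit_localChar_eq (K : Type) [Field K] [NumberField K] (q : ℕ) [Fact q.Prime]
    (ℓ e : ℕ) [Fact ℓ.Prime] (hqℓ : q ≠ ℓ) (m : MaximalSpectrum (K ⊗[ℚ] ℚ_[q])) :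
    ∃ x : (SemiLocal K q)ˣ,
      (∀ m' : Ideal (SemiLocal K q), m'.IsMaximal → m' ≠ m.asIdeal →
        (x : SemiLocal K q) - 1 ∈ m') ∧
      Multiplicative.toAdd (QBridge.divq q K x)
        ⟨CountDict.placeBelow m, CountDict.natCast_mem_placeBelow m⟩ = 1 ∧
      (∀ w : QBridge.PrimesOver q K,
        w ≠ ⟨CountDict.placeBelow m, CountDict.natCast_mem_placeBelow m⟩ →
        Multiplicative.toAdd (QBridge.divq q K x) w = 0) ∧
      ((CycloChar.localChar K ℓ e q x : (ZMod (ℓ ^ e))ˣ) : ZMod (ℓ ^ e)) =
        ((Ideal.absNorm (CountDict.placeBelow m).asIdeal : ℕ) : ZMod (ℓ ^ e)) := by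
  obtain ⟨x, hx1, hx2, hx3⟩ := auxUnif K q m
  refine ⟨x, hx1, hx2, hx3, ?_⟩
  exact localChar_of_divq K q ℓ e hqℓ
    (⟨CountDict.placeBelow m, CountDict.natCast_mem_placeBelow m⟩ : QBridge.PrimesOver q K)
    x hx2 hx3

end Fermat.Agent.CFT.Global.AuxL.Unif
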