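/-
CFT program, layer Global, [AUX]: the decomposition-group dictionary in the shape used by the
auxiliary layer (helper84).  Self-contained wrappers of helper65's `Global/DecompDict.lean`
for the Galois pair `(Gal(E/K), E)` and a maximal ideal `m` of `E ⊗[ℚ] ℚ_[q]` given as an
ideal with a proof of maximality (the binder shape of `orbitRep`, `decompGroup`):

* `auxDict1` — the decomposition group of `m` is the stabilizer of the prime of `𝓞 E` below
  `m` (`CountDict.placeBelow ⟨m, hm⟩`);
* `auxDict2` — the prime below the contraction of `m` to `K` is `Ideal.under` of the prime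
  below `m`;
* `card_decompGroup` — cardinality form of `auxDict1`.
-/
import Mathlib
import Fermat.Agent.CFT.Global.Defs
import Fermat.Agent.CFT.Global.CountDict
import Fermat.Agent.CFT.Global.DecompDict

set_option autoImplicit false

open scoped TensorProduct Pointwise
open scoped Fermat.Agent.CFT.Global

namespace Fermat.Agent.CFT.Global.AuxL.Dict

open Fermat.Agent.CFT.Global NumberField

/-- The prime of `𝓞 L` below a maximal ideal `m` of `L ⊗[ℚ] ℚ_[q]` (`CountDict.placeBelow`),
for `m` given as an ideal with a proof of maximality. -/
noncomputable def primeBelow {L : Type} [Field L] [NumberField L] {q : ℕ} [Fact q.Prime]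
    (m : Ideal (SemiLocal L q)) (hm : m.IsMaximal) : Ideal (𝓞 L) :=
  (CountDict.placeBelow (⟨m, hm⟩ : MaximalSpectrum (L ⊗[ℚ] ℚ_[q]))).asIdeal

/-- **Decomposition groups.**  For a finite Galois extension `E/K` of number fields the
decomposition group (in the sense of `Global/Defs`) of a place `m` of `E` above `q` is the
stabilizer of the prime of `𝓞 E` below `m`. -/
theorem auxDict1 (K E : Type) [Field K] [NumberField K] [Field E] [NumberField E]
    [Algebra K E] (q : ℕ) [Fact q.Prime] (m : Ideal (SemiLocal E q)) (hm : m.IsMaximal) :
    decompGroup Gal(E/K) E q m = MulAction.stabilizer Gal(E/K) (primeBelow m hm) :=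
  DecompDict.decompGroup_eq_stabilizer Gal(E/K) E q ⟨m, hm⟩

/-- **Lying over.**  `primeBelow` is compatible with field extensions. -/
theorem auxDict2 (K E : Type) [Field K] [NumberField K] [Field E] [NumberField E]
    [Algebra K E] (q : ℕ) [Fact q.Prime] (m : Ideal (SemiLocal E q)) (hm : m.IsMaximal)
    (hm' : (m.comap (semiLocalMap q (algebraMap K E))).IsMaximal) :
    primeBelow (m.comap (semiLocalMap q (algebraMap K E))) hm' =
      (primeBelow m hm).under (𝓞 K) :=
  (DecompDict.placeBelow_under q K E ⟨m, hm⟩).symm

/-- Cardinality form of `auxDict1`. -/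
theorem card_decompGroup (K E : Type) [Field K] [NumberField K] [Field E] [NumberField E]
    [Algebra K E] (q : ℕ) [Fact q.Prime] (m : Ideal (SemiLocal E q)) (hm : m.IsMaximal) :
    Nat.card (decompGroup Gal(E/K) E q m) =
      Nat.card (MulAction.stabilizer Gal(E/K) (primeBelow m hm)) := by
  rw [auxDict1 K E q m hm]

end Fermat.Agent.CFT.Global.AuxL.Dict
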