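import Mathlib
import Fermat.Agent.CFT.Global.AuxL.Plan
import Fermat.Agent.CFT.Global.CycloNorm
import Fermat.Agent.Lib.InertiaTower

/-
CFT program, layer Global, [AUX]: leaf **[AUX.Frob]** `AuxL.AuxFrob` (helper42).

`E` an intermediate field of `K(ζ_ℓ)/K`, Galois over `K`; `P` a nonzero prime of `𝓞 E` not
containing `ℓ`, with trivial inertia group.  The arithmetic Frobenius `φ ∈ Gal(K(ζ_ℓ)/K)` at a
prime of `K(ζ_ℓ)` above `P` acts on the `ℓ`-th roots of unity by `t ↦ t ^ N(P ∩ 𝓞 K)`, and its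
restriction to `E` is a Frobenius at `P`, of order exactly `|Stab(P)|` (trivial inertia:
`Stab(P) ≅ Gal(k(P)/k(v))`, generated by the Frobenius of the finite fields).

* `orderOf_frob_eq_card_stabilizer` : any Galois `E/K` of number fields.
* `isArithFrobAt_restrict` : restriction of a Frobenius in a tower.
* `exists_frob`, `auxFrob : AuxL.AuxFrob`, `stab_dvd_of_natCast_eq_or_neg` (sign form).
-/

set_option autoImplicit false

open scoped Pointwise
open NumberField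

namespace Fermat.Agent.CFT.Global.AuxL.Frob

/-! ### 1. The order of a Frobenius at an unramified prime -/

section Order

variable {K E : Type*} [Field K] [NumberField K] [Field E] [NumberField E] [Algebra K E]
  [IsGalois K E]

attribute [local instance] Ideal.Quotient.field in
/-- At a nonzero prime `P` of `𝓞 E` with trivial inertia group, an arithmetic Frobenius has
order `|Stab(P)|` in `Gal(E/K)`. -/
theorem orderOf_frob_eq_card_stabilizer (P : Ideal (𝓞 E)) [hP : P.IsPrime] (hP0 : P ≠ ⊥)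
    (hin : P.inertia Gal(E/K) = ⊥) (σ : Gal(E/K)) (hσ : IsArithFrobAt (𝓞 K) σ P) :
    orderOf σ = Nat.card (MulAction.stabilizer Gal(E/K) P) := by
  have hPmax : P.IsMaximal := hP.isMaximal hP0
  have hfin : Finite (𝓞 E ⧸ P) := Ideal.finiteQuotientOfFreeOfNeBot P hP0
  have hpmax : (P.under (𝓞 K)).IsMaximal := Ideal.IsMaximal.under (𝓞 K) P
  have hfinp : Finite (𝓞 K ⧸ P.under (𝓞 K)) :=
    Finite.of_injective _ (algebraMap (𝓞 K ⧸ P.under (𝓞 K)) (𝓞 E ⧸ P)).injective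
  let _ : Fintype (𝓞 K ⧸ P.under (𝓞 K)) := Fintype.ofFinite _
  let sH := Ideal.Quotient.stabilizerHom P (P.under (𝓞 K)) Gal(E/K)
  have hsurj : Function.Surjective sH :=
    Ideal.Quotient.stabilizerHom_surjective Gal(E/K) (P.under (𝓞 K)) P
  have hker : sH.ker = ⊥ := by
    have h1 := Ideal.Quotient.map_ker_stabilizer_subtype P (P.under (𝓞 K)) Gal(E/K)
    rw [hin] at h1
    exact (Subgroup.map_eq_bot_iff_of_injective _ (Subgroup.subtype_injective _)).mp h1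
  have hinj : Function.Injective sH := (MonoidHom.ker_eq_bot_iff sH).mp hker
  have hmem : σ ∈ MulAction.stabilizer Gal(E/K) P := hσ.mem_stabilizer
  have hfrob : sH ⟨σ, hmem⟩ =
      FiniteField.frobeniusAlgEquivOfAlgebraic (𝓞 K ⧸ P.under (𝓞 K)) (𝓞 E ⧸ P) := by
    ext x
    obtain ⟨x, rfl⟩ := Ideal.Quotient.mk_surjective x
    rw [FiniteField.coe_frobeniusAlgEquivOfAlgebraic]
    have h1 := AlgHom.IsArithFrobAt.mk_apply hσ x
    rw [Nat.card_eq_fintype_card] at h1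
    exact h1
  have h1 : orderOf σ = orderOf (⟨σ, hmem⟩ : MulAction.stabilizer Gal(E/K) P) :=
    (Subgroup.orderOf_mk σ hmem).symm
  rw [h1, ← orderOf_injective sH hinj, hfrob, FiniteField.orderOf_frobeniusAlgEquivOfAlgebraic,
    ← IsGalois.card_aut_eq_finrank]
  exact (Nat.card_congr (Equiv.ofBijective sH ⟨hinj, hsurj⟩)).symm

end Order

/-! ### 2. Restriction of a Frobenius -/

section Restrict

variable {K E M : Type*} [Field K] [NumberField K] [Field E] [NumberField E] [Field M]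
  [NumberField M] [Algebra K E] [Algebra E M] [Algebra K M] [IsScalarTower K E M]
  [IsGalois K E] [IsGalois K M]

/-- The restriction to `E` of an arithmetic Frobenius of `M/K` at `𝔓` is an arithmetic
Frobenius of `E/K` at `𝔓 ∩ 𝓞 E`. -/
theorem isArithFrobAt_restrict (𝔓 : Ideal (𝓞 M)) (φ : Gal(M/K))
    (hφ : IsArithFrobAt (𝓞 K) φ 𝔓) :
    IsArithFrobAt (𝓞 K) (AlgEquiv.restrictNormalHom E φ) (𝔓.under (𝓞 E)) := by
  intro x
  have h1 := hφ (algebraMap (𝓞 E) (𝓞 M) x)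
  have h2 : (MulSemiringAction.toAlgHom (𝓞 K) (𝓞 M) φ) (algebraMap (𝓞 E) (𝓞 M) x) =
      algebraMap (𝓞 E) (𝓞 M) (AlgEquiv.restrictNormalHom E φ • x) :=
    Fermat.Agent.Lib.InertiaTower.smul_algebraMap φ x
  rw [h2, ← map_pow, ← map_sub] at h1
  rw [Ideal.under_under]
  exact h1

end Restrict

/-! ### 3. `AuxFrob` -/

/-- The cyclotomic character of an automorphism acting on the `n`-th roots of unity by
`t ↦ t ^ k`. -/
theorem autToPow_eq_natCast {K M : Type*} [Field K] [Field M] [Algebra K M] {n : ℕ} [NeZero n]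
    {ζ : M} (hζ : IsPrimitiveRoot ζ n) (σ : Gal(M/K)) (k : ℕ) (hσ : σ ζ = ζ ^ k) :
    ((hζ.autToPow K σ : (ZMod n)ˣ) : ZMod n) = (k : ZMod n) := by
  have h1 := hζ.autToPow_spec K σ
  rw [hσ, pow_eq_pow_mod k hζ.pow_eq_one] at h1
  have h3 := hζ.pow_inj (ZMod.val_lt _) (Nat.mod_lt _ (Nat.pos_of_ne_zero (NeZero.ne n))) h1
  rw [← ZMod.natCast_mod k, ← h3, ZMod.natCast_zmod_val]

/-- **The Frobenius of `K(ζ_ℓ)/K` at an unramified prime of `E ⊆ K(ζ_ℓ)`.**  There is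
`φ ∈ Gal(K(ζ_ℓ)/K)` acting on the `ℓ`-th roots of unity by `t ↦ t ^ N(P ∩ 𝓞 K)` whose restriction
to `E` is an arithmetic Frobenius at `P`, of order `|Stab(P)|`. -/
theorem exists_frob (K : Type*) [Field K] [NumberField K] (ℓ : ℕ) [hℓ : Fact ℓ.Prime]
    (E : IntermediateField K (CyclotomicField ℓ K)) [IsGalois K E]
    (P : Ideal (𝓞 E)) (hP : P.IsPrime) (hP0 : P ≠ ⊥) (hℓP : (ℓ : 𝓞 E) ∉ P)
    (hin : P.inertia Gal(E/K) = ⊥) :
    ∃ φ : Gal(CyclotomicField ℓ K/K),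
      (∀ t : CyclotomicField ℓ K, t ^ ℓ = 1 → φ t = t ^ Ideal.absNorm (P.under (𝓞 K))) ∧
      IsArithFrobAt (𝓞 K) (AlgEquiv.restrictNormalHom E φ) P ∧
      orderOf (AlgEquiv.restrictNormalHom E φ) = Nat.card (MulAction.stabilizer Gal(E/K) P) := by
  have hgalM : IsGalois K (CyclotomicField ℓ K) :=
    IsCyclotomicExtension.isGalois {ℓ} K (CyclotomicField ℓ K)
  -- a prime of `K(ζ_ℓ)` above `P` and its Frobenius
  have hPmax : P.IsMaximal := hP.isMaximal hP0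
  obtain ⟨𝔓, h𝔓max, h𝔓over⟩ :=
    Ideal.exists_maximal_ideal_liesOver_of_isIntegral (S := 𝓞 (CyclotomicField ℓ K)) P
  have h𝔓p : 𝔓.IsPrime := h𝔓max.isPrime
  have hund : 𝔓.under (𝓞 E) = P := h𝔓over.over.symm
  have h𝔓0 : 𝔓 ≠ ⊥ := by
    rintro rfl
    apply hP0
    rw [← hund]
    exact Ideal.under_bot (𝓞 E) (𝓞 (CyclotomicField ℓ K))
  have hfin : Finite (𝓞 (CyclotomicField ℓ K) ⧸ 𝔓) := Ideal.finiteQuotientOfFreeOfNeBot 𝔓 h𝔓0
  have hℓ𝔓 : (ℓ : 𝓞 (CyclotomicField ℓ K)) ∉ 𝔓 := by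
    intro hmem
    apply hℓP
    rw [← hund, Ideal.under_def, Ideal.mem_comap, map_natCast]
    exact hmem
  set φ : Gal(CyclotomicField ℓ K/K) := arithFrobAt (𝓞 K) Gal(CyclotomicField ℓ K/K) 𝔓 with hφdef
  have hφ : IsArithFrobAt (𝓞 K) φ 𝔓 := IsArithFrobAt.arithFrobAt (𝓞 K) Gal(CyclotomicField ℓ K/K) 𝔓
  have hundK : 𝔓.under (𝓞 K) = P.under (𝓞 K) := by
    rw [← hund, Ideal.under_under]
  have hfrobE : IsArithFrobAt (𝓞 K) (AlgEquiv.restrictNormalHom E φ) P := by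
    have := isArithFrobAt_restrict (E := E) 𝔓 φ hφ
    rwa [hund] at this
  refine ⟨φ, fun t ht => ?_, hfrobE, orderOf_frob_eq_card_stabilizer P hP0 hin _ hfrobE⟩
  have := CycloNorm.frob_apply_of_pow_eq_one φ 𝔓 hφ hℓ.out.ne_zero ht hℓ𝔓
  rwa [hundK] at this

/-- **[AUX.Frob]** (`AuxL.AuxFrob`, verbatim). -/
theorem auxFrob : AuxL.AuxFrob := by
  intro K _ _ ℓ hℓ E _ P hP hP0 hℓP hin
  obtain ⟨φ, hφ1, -, hord⟩ := exists_frob K ℓ E P hP hP0 hℓP hin
  refine ⟨φ, hφ1, fun n hn => ?_⟩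
  have hres : (AlgEquiv.restrictNormalHom E φ) ^ n = 1 := by
    rw [← map_zpow]
    ext x
    have h1 : algebraMap E (CyclotomicField ℓ K) (AlgEquiv.restrictNormalHom E (φ ^ n) x) =
        (φ ^ n) (algebraMap E (CyclotomicField ℓ K) x) :=
      AlgEquiv.restrictNormal_commutes (φ ^ n) E x
    exact h1.trans (hn x)
  rw [← hord]
  exact orderOf_dvd_iff_zpow_eq_one.mpr hres

/-- Sign form (`E/K` of odd degree): if `τ ∈ Gal(K(ζ_ℓ)/K)` fixes `E` pointwise and acts on the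
`ℓ`-th roots of unity as `t ↦ t ^ k` with `k = ± N(P ∩ 𝓞 K) ^ n` modulo `ℓ`, then the order of
the decomposition group of `P` divides `n`. -/
theorem stab_dvd_of_natCast_eq_or_neg (K : Type*) [Field K] [NumberField K] (ℓ : ℕ)
    [hℓ : Fact ℓ.Prime] (E : IntermediateField K (CyclotomicField ℓ K)) [IsGalois K E]
    (hodd : Odd (Nat.card Gal(E/K)))
    (P : Ideal (𝓞 E)) (hP : P.IsPrime) (hP0 : P ≠ ⊥) (hℓP : (ℓ : 𝓞 E) ∉ P)
    (hin : P.inertia Gal(E/K) = ⊥)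
    (u : (ZMod ℓ)ˣ)
    (hu : ((u : (ZMod ℓ)ˣ) : ZMod ℓ) = ((Ideal.absNorm (P.under (𝓞 K)) : ℕ) : ZMod ℓ))
    (n : ℤ) (τ : Gal(CyclotomicField ℓ K/K))
    (hτ : ∀ x : E, τ (x : CyclotomicField ℓ K) = x)
    (k : ℕ) (hk : ∀ t : CyclotomicField ℓ K, t ^ ℓ = 1 → τ t = t ^ k)
    (hku : (k : ZMod ℓ) = ((u ^ n : (ZMod ℓ)ˣ) : ZMod ℓ) ∨
      (k : ZMod ℓ) = -((u ^ n : (ZMod ℓ)ˣ) : ZMod ℓ)) :
    (Nat.card (MulAction.stabilizer Gal(E/K) P) : ℤ) ∣ n := by
  have hnz : NeZero ℓ := ⟨hℓ.out.ne_zero⟩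
  have hζ := IsCyclotomicExtension.zeta_spec ℓ K (CyclotomicField ℓ K)
  set ζ := IsCyclotomicExtension.zeta ℓ K (CyclotomicField ℓ K) with hζdef
  obtain ⟨φ, hφ1, -, hord⟩ := exists_frob K ℓ E P hP hP0 hℓP hin
  -- the characters of `φ` and `τ`
  have hχφ : hζ.autToPow K φ = u := by
    apply Units.ext
    rw [autToPow_eq_natCast hζ φ _ (hφ1 ζ hζ.pow_eq_one), hu]
  have hχτ : ((hζ.autToPow K τ : (ZMod ℓ)ˣ) : ZMod ℓ) = (k : ZMod ℓ) :=
    autToPow_eq_natCast hζ τ k (hk ζ hζ.pow_eq_one)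
  have hsq : (hζ.autToPow K τ) ^ 2 = u ^ (2 * n) := by
    have h1 : hζ.autToPow K τ = u ^ n ∨ hζ.autToPow K τ = -u ^ n := by
      rcases hku with h | h
      · left
        apply Units.ext
        rw [hχτ, h]
      · right
        apply Units.ext
        rw [hχτ, h, Units.val_neg]
    have h2 : (u ^ n) ^ 2 = u ^ (2 * n) := by
      rw [← zpow_natCast, ← zpow_mul, mul_comm]
      rfl
    rcases h1 with h1 | h1
    · rw [h1, h2]
    · rw [h1, neg_sq, h2]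
  have hτφ : τ ^ 2 = φ ^ (2 * n) := by
    apply hζ.autToPow_injective K
    rw [map_pow, map_zpow, hχφ, hsq]
  -- restriction to `E`
  have hresτ : AlgEquiv.restrictNormalHom E τ = 1 := by
    ext x
    have h1 : algebraMap E (CyclotomicField ℓ K) (AlgEquiv.restrictNormalHom E τ x) =
        τ (algebraMap E (CyclotomicField ℓ K) x) := AlgEquiv.restrictNormal_commutes τ E x
    exact h1.trans (hτ x)
  have hresφ : (AlgEquiv.restrictNormalHom E φ) ^ (2 * n) = 1 := by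
    rw [← map_zpow, ← hτφ, map_pow, hresτ, one_pow]
  have hdvd : ((orderOf (AlgEquiv.restrictNormalHom E φ) : ℕ) : ℤ) ∣ 2 * n :=
    orderOf_dvd_iff_zpow_eq_one.mpr hresφ
  rw [hord] at hdvd
  -- odd order
  have hoddD : Odd (Nat.card (MulAction.stabilizer Gal(E/K) P)) :=
    Odd.of_dvd_nat hodd (Subgroup.card_subgroup_dvd_card _)
  have hcop : IsCoprime ((Nat.card (MulAction.stabilizer Gal(E/K) P) : ℕ) : ℤ) (2 : ℤ) := by
    have : Nat.Coprime (Nat.card (MulAction.stabilizer Gal(E/K) P)) 2 :=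
      Nat.Coprime.symm (Nat.coprime_two_left.mpr hoddD)
    exact_mod_cast Nat.isCoprime_iff_coprime.mpr this
  exact hcop.dvd_of_dvd_mul_left hdvd

end Fermat.Agent.CFT.Global.AuxL.Frob
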