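/-
CFT program, layer Global, [AUX]: the auxiliary layer — the contracts plugged in (helper25).

* `auxRec_holds : AuxRec` — unconditional (`Unif.auxUnif` helper41, `Frob.auxFrob` helper42,
  `Extract.auxExtract` helper13, `Rec.auxRec`);
* `auxLayerCyc_of_count`, `auxLayer_of_count : AuxCount → LGChase.AuxLayer` — `[AUX]` from the
  count `AuxCount` alone;
* **`auxLayerCyc_holds : LGChase.AuxLayerCyc`, `auxLayer_holds : LGChase.AuxLayer`** —
  unconditional (`Count.auxCount`, helper19).
-/
import Mathlib
import Fermat.Agent.CFT.Global.AuxL.Rec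
import Fermat.Agent.CFT.Global.AuxL.Main
import Fermat.Agent.CFT.Global.AuxL.Unif
import Fermat.Agent.CFT.Global.AuxL.Frob
import Fermat.Agent.CFT.Global.AuxL.Extract
import Fermat.Agent.CFT.Global.AuxL.Count

set_option autoImplicit false

namespace Fermat.Agent.CFT.Global.AuxL

/-- **[AUX.Rec]**, unconditionally. -/
theorem auxRec_holds : AuxRec := auxRec Unif.auxUnif Frob.auxFrob Extract.auxExtract

/-- **[AUX]**, norm form, from the count `AuxCount`. -/
theorem auxLayerCyc_of_count (hC : AuxCount) : LGChase.AuxLayerCyc := auxLayerCyc auxRec_holds hC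

/-- **[AUX]** `LGChase.AuxLayer` from the count `AuxCount`. -/
theorem auxLayer_of_count (hC : AuxCount) : LGChase.AuxLayer := auxLayer auxRec_holds hC

/-- **[AUX]**, norm form, unconditionally. -/
theorem auxLayerCyc_holds : LGChase.AuxLayerCyc := auxLayerCyc_of_count Count.auxCount

/-- **[AUX]** `LGChase.AuxLayer`, unconditionally. -/
theorem auxLayer_holds : LGChase.AuxLayer := auxLayer_of_count Count.auxCount

end Fermat.Agent.CFT.Global.AuxL
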