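/-
CFT program, layer Global, [AUX]: reciprocity for the auxiliary layer (helper25).

`auxRec : AuxUnif → AuxFrob → AuxExtract → AuxRec`.

`E ⊆ M := K(ζ_ℓ)` Galois over `K` of odd degree, unramified outside `ℓ`; `q ≠ ℓ`; `m` a place of
`E` above `q`, `mK` the place of `K` below it, `P` the prime of `𝓞 E` below `m`.

* `x₁` : the uniformizer of `K ⊗ ℚ_q` in the block of `mK` (`AuxUnif`), `a₁` its image in the
  block of `m`; it is `Γ`-invariant.
* If the class of `n • a₁` is a norm, then `x₁ ^ n · principal u = N_Γ b` on ideles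
  (`AuxExtract`).
* `φ` the Frobenius of `AuxFrob`; `φ ^ n` is an Artin symbol of `x₁ ^ n`
  (`CycloArtin.isArtin_mulSingle_zpow`), hence fixes `E` (`CycloArtin.IsArtin.apply_eq_of_norm`),
  hence `|Stab P| ∣ n` (`AuxFrob`), and `|Stab P| = |D_m|` (`DecompDict.card_decompGroup`).
-/
import Mathlib
import Fermat.Agent.CFT.Global.AuxL.Plan
import Fermat.Agent.CFT.Global.CycloArtin
import Fermat.Agent.CFT.Global.DecompDict
import Fermat.Agent.CFT.Global.OrbitDescent
import Fermat.Agent.CFT.Global.GaloisPair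

set_option autoImplicit false
set_option linter.style.haveILetI false

open scoped TensorProduct Pointwise
open scoped Fermat.Agent.CFT.Global

namespace Fermat.Agent.CFT.Global.AuxL

open Fermat.Agent.CFT.Global NumberField

/-! ### The tower `K ⊆ E` for a Galois extension in Mathlib vocabulary -/

section Tower

/-- The trivial action of the one-element group `GaloisPair.TrivGrp` on a field (a reducible
definition, to be used as a local instance). -/
@[reducible] def trivActBase (K : Type) [Field K] : MulSemiringAction GaloisPair.TrivGrp K where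
  smul _ x := x
  one_smul _ := rfl
  mul_smul _ _ _ := rfl
  smul_zero _ := rfl
  smul_add _ _ _ := rfl
  smul_one _ := rfl
  smul_mul _ _ _ := rfl

attribute [local instance] trivActBase

variable (K E : Type) [Field K] [Field E] [Algebra K E] [FiniteDimensional K E] [IsGalois K E]

/-- The fixed field of `Gal(E/K)` is `K`. -/
theorem hfixBase (y : E) : (∀ γ : E ≃ₐ[K] E, γ • y = y) ↔ y ∈ (algebraMap K E).range := by
  constructor
  · intro hy
    have h : y ∈ (⊥ : IntermediateField K E) := (IsGalois.mem_bot_iff_fixed y).mpr hy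
    obtain ⟨x, hx⟩ := IntermediateField.mem_bot.mp h
    exact ⟨x, hx⟩
  · rintro ⟨x, rfl⟩ γ
    exact γ.commutes x

/-- `K ⊆ E` is a tower datum for `(Gal(E/K), E)` over the trivial group acting on `K`. -/
theorem isTowerBase :
    IsTower (algebraMap K E) (1 : (E ≃ₐ[K] E) →* GaloisPair.TrivGrp) where
  surj := fun t => ⟨1, by cases t; rfl⟩
  equivariant := fun g x => (g.commutes x).symm
  fixed := fun y hy => (hfixBase K E y).mp (fun γ => hy γ (by simp))

end Tower

/-- A coprime pair of natural numbers cannot both lie in a proper ideal. -/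
theorem one_mem_of_coprime {R : Type*} [CommRing R] (I : Ideal R) {a b : ℕ}
    (h : Nat.Coprime a b) (ha : (a : R) ∈ I) (hb : (b : R) ∈ I) : (1 : R) ∈ I := by
  obtain ⟨s, t, hst⟩ := Nat.isCoprime_iff_coprime.mpr h
  have h1 : ((s : ℤ) : R) * (a : R) + ((t : ℤ) : R) * (b : R) = 1 := by
    have := congrArg (Int.cast : ℤ → R) hst
    push_cast at this
    exact this
  rw [← h1]
  exact I.add_mem (I.mul_mem_left _ ha) (I.mul_mem_left _ hb)

/-- Elements of the image of `semiLocalMap q f` are fixed by a group fixing `f(L)`. -/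
theorem smul_semiLocalMap_fixed {L L' : Type} [Field L] [CharZero L] [Field L'] [CharZero L']
    {Γ : Type} [Group Γ] [MulSemiringAction Γ L'] (f : L →+* L')
    (hf : ∀ (γ : Γ) (a : L), γ • f a = f a) (q : ℕ) [Fact q.Prime] (γ : Γ) (x : SemiLocal L q) :
    γ • semiLocalMap q f x = semiLocalMap q f x := by
  induction x using TensorProduct.induction_on with
  | zero => simp
  | tmul a b => rw [semiLocalMap_tmul, smul_tmul_eq, hf]
  | add x y hx hy => rw [map_add, smul_add, hx, hy]

attribute [local instance] trivActBase in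
/-- **[AUX.Rec]** from the uniformizer, the Frobenius and the extraction contracts. -/
theorem auxRec (hU : AuxUnif) (hF : AuxFrob) (hX : AuxExtract) : AuxRec := by
  intro K _ _ ℓ hℓ E _ _ _ hodd hunr q hqℓ m hm
  haveI : NeZero ℓ := ⟨hℓ.out.ne_zero⟩
  haveI : NumberField (CyclotomicField ℓ K) := IsCyclotomicExtension.numberField {ℓ} K _
  haveI : IsGalois K (CyclotomicField ℓ K) := IsCyclotomicExtension.isGalois {ℓ} K _
  haveI : FiniteDimensional K (CyclotomicField ℓ K) :=
    IsCyclotomicExtension.finiteDimensional {ℓ} K _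
  have hT : IsTower (algebraMap K E) (1 : Gal(E/K) →* GaloisPair.TrivGrp) := isTowerBase K E
  have hfix := hfixBase K E
  -- the places
  let mE : MaximalSpectrum (SemiLocal E q) := ⟨m, hm⟩
  let mK : MaximalSpectrum (SemiLocal K q) := DecompDict.comapMax q (algebraMap K E) mE
  let v : QBridge.PrimesOver (q : ℕ) K :=
    ⟨CountDict.placeBelow mK, CountDict.natCast_mem_placeBelow mK⟩
  -- the uniformizer in the block of `mK`
  obtain ⟨x₁, hx1, hd1, hd0⟩ := hU K q mK
  -- its powers map into the block of `m`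
  have hmem : ∀ n : ℤ, Units.map (semiLocalMap (q : ℕ) (algebraMap K E)).toMonoidHom (x₁ ^ n) ∈
      orbitUnits Gal(E/K) E q m := by
    intro n
    rw [OrbitDescent.map_mem_orbitUnits_iff hT q m hm]
    refine Subgroup.zpow_mem _ ?_ n
    intro m'' hm'' hne
    refine hx1 m'' hm'' ?_
    intro hEq
    obtain ⟨a, ha⟩ := hne 1
    apply ha
    rw [one_smul, hEq]
    rfl
  let a₁ : (orbitRep Gal(E/K) E q m).V :=
    (⟨Additive.ofMul (Units.map (semiLocalMap (q : ℕ) (algebraMap K E)).toMonoidHom
      (x₁ ^ (1 : ℤ))), hmem 1⟩ : ↥(addSub (orbitUnits Gal(E/K) E q m)))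
  refine ⟨a₁, ?_, ?_⟩
  · -- invariance
    intro γ
    apply Subtype.ext
    show Additive.ofMul (γ • Units.map (semiLocalMap (q : ℕ) (algebraMap K E)).toMonoidHom
      (x₁ ^ (1 : ℤ))) = Additive.ofMul _
    congr 1
    apply Units.ext
    rw [coe_smul_units]
    exact smul_semiLocalMap_fixed (algebraMap K E)
      (fun γ a => (hfix _).mpr ⟨a, rfl⟩ γ) q γ _
  · -- reciprocity
    intro n hc
    have hna : n • a₁ = (⟨Additive.ofMul
        (Units.map (semiLocalMap (q : ℕ) (algebraMap K E)).toMonoidHom (x₁ ^ n)), hmem n⟩ :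
          ↥(addSub (orbitUnits Gal(E/K) E q m))) := by
      apply Subtype.ext
      show n • Additive.ofMul (Units.map (semiLocalMap (q : ℕ) (algebraMap K E)).toMonoidHom
        (x₁ ^ (1 : ℤ))) = Additive.ofMul _
      rw [zpow_one, map_zpow (Units.map (semiLocalMap (q : ℕ) (algebraMap K E)).toMonoidHom) x₁ n]
      exact (ofMul_zpow n _).symm
    have hc' : ∃ c : ClassGroupOf E, (classRep Gal(E/K) E).ρ.norm c =
        (orbitToClass Gal(E/K) E q m).hom (⟨Additive.ofMul
          (Units.map (semiLocalMap (q : ℕ) (algebraMap K E)).toMonoidHom (x₁ ^ n)), hmem n⟩ :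
            ↥(addSub (orbitUnits Gal(E/K) E q m))) := by
      obtain ⟨c, hc⟩ := hc
      exact ⟨c, hc.trans (congrArg _ hna)⟩
    obtain ⟨u, b, hb⟩ := hX K E Gal(E/K) (algebraMap K E) hfix q m (x₁ ^ n) (hmem n) hc'
    -- the prime below `m` and its Frobenius
    have hP : (CountDict.placeBelow mE).asIdeal.IsPrime := (CountDict.placeBelow mE).isPrime
    have hP0 : (CountDict.placeBelow mE).asIdeal ≠ ⊥ := (CountDict.placeBelow mE).ne_bot
    have hℓP : (ℓ : 𝓞 E) ∉ (CountDict.placeBelow mE).asIdeal := by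
      intro hmemℓ
      have hq : ((q : ℕ) : 𝓞 E) ∈ (CountDict.placeBelow mE).asIdeal :=
        CountDict.natCast_mem_placeBelow mE
      have hcop : Nat.Coprime (q : ℕ) ℓ := (Nat.coprime_primes q.2 hℓ.out).mpr hqℓ
      exact hP.ne_top ((Ideal.eq_top_iff_one _).mpr (one_mem_of_coprime _ hcop hq hmemℓ))
    obtain ⟨φ, hφ, hord⟩ := hF K ℓ E (CountDict.placeBelow mE).asIdeal hP hP0 hℓP
      (hunr _ hP hP0 hℓP)
    have hunder : (CountDict.placeBelow mE).asIdeal.under (𝓞 K) = v.1.asIdeal :=
      DecompDict.placeBelow_under (q : ℕ) K E mE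
    -- `φ ^ n` is an Artin symbol of `x₁ ^ n`
    have hexp : Multiplicative.toAdd (QBridge.divq (q : ℕ) K (x₁ ^ n)) v = n := by
      rw [map_zpow, toAdd_zpow, Pi.smul_apply, hd1, smul_eq_mul, mul_one]
    have hsupp : ∀ w, w ≠ v → Multiplicative.toAdd (QBridge.divq (q : ℕ) K (x₁ ^ n)) w = 0 := by
      intro w hw
      rw [map_zpow, toAdd_zpow, Pi.smul_apply, hd0 w hw, smul_zero]
    have hart := CycloArtin.isArtin_mulSingle_zpow (K := K) (r := ℓ) (e := 1)
      (M := CyclotomicField ℓ K) q hqℓ (x₁ ^ n) v hsupp φ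
      (fun t ht => by
        rw [pow_one] at ht
        rw [hφ t ht, hunder])
    rw [hexp] at hart
    -- automorphisms of `K(ζ_ℓ)/K` are determined by their action on the `ℓ`-th roots of unity
    have hinj : ∀ ρ : CyclotomicField ℓ K ≃ₐ[K] CyclotomicField ℓ K,
        (∀ t : CyclotomicField ℓ K, t ^ (ℓ ^ 1) = 1 → ρ t = t) → ρ = 1 := by
      intro ρ hρ
      have hζ := IsCyclotomicExtension.zeta_spec ℓ K (CyclotomicField ℓ K)
      have h1 : ρ (IsCyclotomicExtension.zeta ℓ K (CyclotomicField ℓ K)) =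
          IsCyclotomicExtension.zeta ℓ K (CyclotomicField ℓ K) :=
        hρ _ (by rw [pow_one]; exact hζ.pow_eq_one)
      have h2 : (ρ : CyclotomicField ℓ K →ₐ[K] CyclotomicField ℓ K) =
          AlgHom.id K (CyclotomicField ℓ K) :=
        (hζ.powerBasis K).algHom_ext (by rw [IsPrimitiveRoot.powerBasis_gen]; exact h1)
      ext y
      exact DFunLike.congr_fun h2 y
    -- hence `φ ^ n` fixes `E`
    have hfixE : ∀ z : E, (φ ^ n) (algebraMap E (CyclotomicField ℓ K) z) =
        algebraMap E (CyclotomicField ℓ K) z :=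
      fun z => CycloArtin.IsArtin.apply_eq_of_norm hinj hodd (algebraMap K E) hfix
        (algebraMap E (CyclotomicField ℓ K))
        (fun a => (IsScalarTower.algebraMap_apply K E (CyclotomicField ℓ K) a).symm)
        ⟨Pi.mulSingle q (x₁ ^ n), CycloChar.mulSingle_mem_finIdele K q (x₁ ^ n)⟩ u b hb hart z
    have hdvd := hord n hfixE
    have hcard := DecompDict.card_decompGroup Gal(E/K) E (q : ℕ) mE
    show (Nat.card (decompGroup Gal(E/K) E q mE.asIdeal) : ℤ) ∣ n
    rw [hcard]
    exact hdvd

end Fermat.Agent.CFT.Global.AuxL
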